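/-
Formal properties of classes of line systems on the base changes of a curve: functoriality,
normalisation, and classes over a field.
-/
import Fermat.Agent.Jacobian.Core.Targets

set_option autoImplicit false

universe u

open CategoryTheory CategoryTheory.Limits AlgebraicGeometry AlgebraicGeometry.RelPicard
  TopologicalSpace Opposite NeronModelInfra GoodReductionJacobian

noncomputable section

namespace Fermat.Agent.Jacobian.Props

variable {k : Type u} [Field k] {C : Scheme.{u}} {c : C ⟶ Spec (CommRingCat.of k)}
variable {T T' T'' : Scheme.{u}} {t : T ⟶ Spec (CommRingCat.of k)}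
  {t' : T' ⟶ Spec (CommRingCat.of k)} {t'' : T'' ⟶ Spec (CommRingCat.of k)}

theorem bcPic_bcPic (φ : SchemeHomOver t' t) (ψ : SchemeHomOver t'' t')
    (a : LinePic (pullback c t)) :
    bcPic c ψ (bcPic c φ a) = bcPic c (postComp φ ψ) a := by
  rw [bcPic, bcPic, bcPic, LinePic.pullback_pullback, baseChangeSnd_comp]

theorem bcPic_id' (ψ : SchemeHomOver t t) (hψ : ψ.1 = 𝟙 T) (a : LinePic (pullback c t)) :
    bcPic c ψ a = a := by
  obtain ⟨g, hg⟩ := ψ
  obtain rfl : g = 𝟙 T := hψ
  have : baseChangeSnd c (⟨𝟙 T, hg⟩ : SchemeHomOver t t) = 𝟙 (pullback c t) :=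
    baseChangeSnd_id c t
  rw [bcPic, this, LinePic.pullback_id]
  rfl

theorem bcPic_pointClass (D : DiagDivisor c) (φ : SchemeHomOver t' t) (σ : SchemeHomOver t c) :
    bcPic c φ (D.pointClass σ) = D.pointClass (postComp σ φ) := by
  rw [bcPic, DiagDivisor.pointClass, DiagDivisor.pointClass, LinePic.pullback_pullback]
  congr 2
  unfold pointMap baseChangeSnd postComp
  apply pullback.hom_ext <;>
    simp only [Category.assoc, pullback.lift_fst, pullback.lift_snd, pullback.lift_snd_assoc,
      Category.comp_id]

theorem bcPic_listClass (D : DiagDivisor c) (φ : SchemeHomOver t' t)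
    (P : List (SchemeHomOver t c)) :
    bcPic c φ (D.listClass P) = D.listClass (P.map fun σ => postComp σ φ) := by
  rw [DiagDivisor.listClass, DiagDivisor.listClass, map_list_prod, List.map_map, List.map_map]
  congr 2
  funext σ
  exact bcPic_pointClass D φ σ

theorem constPt_eq_postComp (P : SchemeHomOver (𝟙 (Spec (CommRingCat.of k))) c)
    (ψ : SchemeHomOver t (𝟙 (Spec (CommRingCat.of k)))) : postComp P ψ = constPt t P := by
  obtain ⟨g, hg⟩ := ψ
  rw [Category.comp_id] at hg
  subst hg
  rfl

variable {ε : SchemeHomOver (𝟙 (Spec (CommRingCat.of k))) c}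

theorem rigHom_piHom (a : LinePic T) : rigHom c ε t (piHom c t a) = a := by
  rw [rigHom, piHom, LinePic.pullback_pullback,
    show rigSection c t ε ≫ pullback.snd c t = 𝟙 T from pullback.lift_snd _ _ _, LinePic.pullback_id]
  rfl

theorem rigHom_bcPic (φ : SchemeHomOver t' t) (a : LinePic (pullback c t)) :
    rigHom c ε t' (bcPic c φ a) = LinePic.pullback φ.1 (rigHom c ε t a) := by
  rw [rigHom, bcPic, rigHom, LinePic.pullback_pullback, LinePic.pullback_pullback,
    rigSection_baseChangeSnd]

theorem rigHom_bcPic_eq_one (φ : SchemeHomOver t' t) {a : LinePic (pullback c t)}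
    (h : rigHom c ε t a = 1) : rigHom c ε t' (bcPic c φ a) = 1 := by
  rw [rigHom_bcPic, h, map_one]

theorem piHom_pullback (φ : SchemeHomOver t' t) (a : LinePic T) :
    piHom c t' (LinePic.pullback φ.1 a) = bcPic c φ (piHom c t a) := by
  rw [piHom, bcPic, piHom, LinePic.pullback_pullback, LinePic.pullback_pullback]
  congr 2
  simp only [baseChangeSnd, pullback.lift_snd]

theorem rig_apply (a : LinePic (pullback c t)) :
    rig c ε t a = a / piHom c t (rigHom c ε t a) := rfl

theorem rigHom_rig (a : LinePic (pullback c t)) : rigHom c ε t (rig c ε t a) = 1 := by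
  rw [rig_apply, map_div, rigHom_piHom, div_self']

theorem bcPic_rig (φ : SchemeHomOver t' t) (a : LinePic (pullback c t)) :
    bcPic c φ (rig c ε t a) = rig c ε t' (bcPic c φ a) := by
  rw [rig_apply, rig_apply, map_div, rigHom_bcPic, piHom_pullback]

/-- The spectrum of a field has no nontrivial classes. -/
theorem linePic_field_eq_one {K : Type u} [Field K] (a : LinePic (Spec (CommRingCat.of K))) :
    a = 1 := by
  obtain ⟨L, rfl⟩ := LinePic.mk_surjective a
  let p : Spec (CommRingCat.of K) := IsLocalRing.closedPoint K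
  have hp : ∀ V : (Spec (CommRingCat.of K)).Opens, V ≤ L.U p := fun V x _ => by
    rw [show x = p from @Subsingleton.elim _ (inferInstanceAs (Subsingleton (PrimeSpectrum K))) x p]
    exact L.mem p
  refine LinePic.mk_eq_mk.mpr ⟨⟨fun x _ V hx _ => L.g x p V hx (hp V), ?_, ?_, ?_⟩⟩
  · intro x _ V W i hx _
    exact L.g_res x p i hx (hp V)
  · intro x y _ V hx hy _
    exact L.g_mul x y p V hx hy (hp V)
  · intro x a b V hx _ _
    exact mul_one _

theorem rigHom_field {K : Type u} [Field K] (v : Spec (CommRingCat.of K) ⟶ Spec (CommRingCat.of k))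
    (a : LinePic (pullback c v)) : rigHom c ε v a = 1 :=
  linePic_field_eq_one _

theorem rig_field {K : Type u} [Field K] (v : Spec (CommRingCat.of K) ⟶ Spec (CommRingCat.of k))
    (a : LinePic (pullback c v)) : rig c ε v a = a := by
  rw [rig_apply, rigHom_field, map_one, div_one]

variable {Q : GeomPred c}

/-- A predicate holding on all fibres holds at every geometric point. -/
theorem onFibres_apply {a : LinePic (pullback c t)} (h : OnFibres c Q t a) {K : Type u} [Field K]
    [IsAlgClosed K] {v : Spec (CommRingCat.of K) ⟶ Spec (CommRingCat.of k)}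
    (ψ : SchemeHomOver v t) : Q K v (bcPic c ψ a) := by
  obtain ⟨g, rfl⟩ := ψ
  exact h K g

theorem onFibres_bcPic {a : LinePic (pullback c t)} (h : OnFibres c Q t a)
    (φ : SchemeHomOver t' t) : OnFibres c Q t' (bcPic c φ a) := by
  intro K _ _ s
  rw [bcPic_bcPic]
  exact onFibres_apply h _

theorem univPic_ext (U : UnivPic c ε Q) {g g' : SchemeHomOver t U.D.toBase}
    (h : bcPic c g U.cls = bcPic c g' U.cls) : g = g' :=
  (U.univ t _ (rigHom_bcPic_eq_one g' U.rig_cls) (onFibres_bcPic U.mem g')).unique h rfl

variable {D : DiagDivisor c}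

theorem listClass_cons (σ : SchemeHomOver t c) (P : List (SchemeHomOver t c)) :
    D.listClass (σ :: P) = D.pointClass σ * D.listClass P := by
  simp [DiagDivisor.listClass]

theorem listClass_replicate (σ : SchemeHomOver t c) (n : ℕ) :
    D.listClass (List.replicate n σ) = D.pointClass σ ^ n := by
  simp [DiagDivisor.listClass]

variable {M : CurveModel c ε}

theorem chiAt_listClass (hone : M.UnitClassProperty) (hF : M.FieldTheory D) {K : Type u} [Field K]
    [IsAlgClosed K] {v : Spec (CommRingCat.of K) ⟶ Spec (CommRingCat.of k)}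
    (P : List (SchemeHomOver v c)) : M.chiAt v (D.listClass P) = M.chiOne + P.length := by
  induction P with
  | nil => simpa [DiagDivisor.listClass] using (hone.2 K v).1
  | cons σ P ih =>
    rw [listClass_cons, mul_comm, hF.chi_point, ih, List.length_cons]
    push_cast
    ring

theorem chiAt_div (hF : M.FieldTheory D) {K : Type u} [Field K]
    [IsAlgClosed K] {v : Spec (CommRingCat.of K) ⟶ Spec (CommRingCat.of k)}
    (a b : LinePic (pullback c v)) :
    M.chiAt v (a / b) = M.chiAt v a - M.chiAt v b + M.chiOne := by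
  have h := hF.chi_mul K v (a / b) b
  rw [div_mul_cancel] at h
  linarith

theorem deg0_div (hF : M.FieldTheory D)
    {a b : LinePic (pullback c t)} (ha : OnFibres c M.deg0 t a) (hb : OnFibres c M.deg0 t b) :
    OnFibres c M.deg0 t (a / b) := by
  intro K _ _ s
  show M.chiAt _ _ = M.chiOne
  have h1 : M.chiAt _ _ = M.chiOne := ha K s
  have h2 : M.chiAt _ _ = M.chiOne := hb K s
  rw [map_div, chiAt_div hF, h1, h2, sub_self, zero_add]

end Fermat.Agent.Jacobian.Props
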