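/-
The scheme carrying a universal class: it is smooth when the charts are, and separated.
-/
import Fermat.Agent.Jacobian.Props.Pic

set_option autoImplicit false

universe u

open CategoryTheory CategoryTheory.Limits AlgebraicGeometry AlgebraicGeometry.RelPicard
  TopologicalSpace Opposite NeronModelInfra GoodReductionJacobian

noncomputable section

namespace Fermat.Agent.Jacobian.Props

variable {k : Type u} [Field k] {C : Scheme.{u}} {c : C ⟶ Spec (CommRingCat.of k)}
  {ε : SchemeHomOver (𝟙 (Spec (CommRingCat.of k))) c}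

/-- Every chart is an open piece of the scheme carrying the universal class. -/
theorem exists_chartOpen {Q : GeomPred c} (U : UnivPic c ε Q) (ch : PicChart c ε Q) :
    ∃ (V : U.D.P.Opens) (e : (V : Scheme.{u}) ≅ ch.X), V.ι ≫ U.D.toBase = e.hom ≫ ch.hom ∧
      ∀ {T : Scheme.{u}} (t : T ⟶ Spec (CommRingCat.of k)) (g : SchemeHomOver t U.D.toBase)
        (g' : SchemeHomOver t ch.hom), bcPic c g' ch.cls = bcPic c g U.cls →
        Set.range g.1 ⊆ (V : Set U.D.P) := by
  obtain ⟨φ, hφ, -⟩ := U.univ ch.hom ch.cls ch.rig_cls ch.mem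
  obtain ⟨V, hV⟩ := ch.openImage U.D.toBase U.cls U.rig_cls U.mem
  have hφV : Set.range φ.1 ⊆ (V : Set U.D.P) := by
    refine (hV φ.1).mpr ⟨⟨𝟙 _, (Category.id_comp _).trans φ.2.symm⟩, ?_⟩
    rw [← hφ, bcPic_bcPic]
    exact congrArg (fun g => bcPic c g U.cls) (Subtype.ext (Category.id_comp _))
  obtain ⟨ψ, hψ⟩ := (hV V.ι).mp (by rw [Scheme.Opens.range_ι])
  have h₁ : ψ.1 ≫ φ.1 = V.ι := by
    have := univPic_ext U (g := postComp φ ψ)
      (g' := (⟨V.ι, rfl⟩ : SchemeHomOver (V.ι ≫ U.D.toBase) U.D.toBase))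
      (by rw [← bcPic_bcPic, hφ, hψ])
    exact congrArg Subtype.val this
  let φ' : ch.X ⟶ (V : Scheme.{u}) :=
    IsOpenImmersion.lift V.ι φ.1 (by rw [Scheme.Opens.range_ι]; exact hφV)
  have hφ' : φ' ≫ V.ι = φ.1 := IsOpenImmersion.lift_fac _ _ _
  have h₂ : φ' ≫ ψ.1 = 𝟙 ch.X := by
    let α : SchemeHomOver ch.hom (V.ι ≫ U.D.toBase) := ⟨φ', by rw [← Category.assoc, hφ', φ.2]⟩
    have := ch.inj ch.hom (postComp ψ α) ⟨𝟙 _, Category.id_comp _⟩ (by
      rw [← bcPic_bcPic, hψ, bcPic_bcPic, bcPic_id' _ rfl]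
      exact (congrArg (fun g => bcPic c g U.cls) (Subtype.ext hφ')).trans hφ)
    exact congrArg Subtype.val this
  refine ⟨V, ⟨ψ.1, φ', ?_, h₂⟩, ψ.2.symm, fun t g g' h => ?_⟩
  · rw [← cancel_mono V.ι, Category.assoc, hφ', h₁, Category.id_comp]
  · have : postComp φ g' = g := univPic_ext U (by rw [← bcPic_bcPic, hφ, h])
    rw [← this]
    rintro _ ⟨x, rfl⟩
    exact hφV ⟨g'.1 x, (Scheme.Hom.comp_apply _ _ _).symm⟩

/-- Every point is the image of a geometric point. -/
theorem exists_geomPoint (X : Scheme.{u}) (x : X) :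
    ∃ (K : Type u) (_ : Field K) (_ : IsAlgClosed K) (s : Spec (CommRingCat.of K) ⟶ X),
      ∀ y, s y = x := by
  refine ⟨AlgebraicClosure (X.residueField x), inferInstance, inferInstance,
    Spec.map (CommRingCat.ofHom (algebraMap (X.residueField x) _)) ≫ X.fromSpecResidueField x,
    fun y => ?_⟩
  rw [Scheme.Hom.comp_apply]
  exact Scheme.fromSpecResidueField_apply _ _

theorem smooth_toBase {Q : GeomPred c} (U : UnivPic c ε Q) {ι : Type u} (ch : ι → PicChart c ε Q)
    (hs : ∀ i, Smooth (ch i).hom) (hcov : PicChartsCover c ε ch) : Smooth U.D.toBase := by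
  choose V e he hV using fun i => exists_chartOpen U (ch i)
  have htop : iSup V = ⊤ := by
    refine top_le_iff.mp fun x _ => Opens.mem_iSup.mpr ?_
    obtain ⟨K, _, _, s, hsx⟩ := exists_geomPoint U.D.P x
    let g : SchemeHomOver (s ≫ U.D.toBase) U.D.toBase := ⟨s, rfl⟩
    obtain ⟨i, g', hg'⟩ := hcov K _ (bcPic c g U.cls) (rigHom_bcPic_eq_one g U.rig_cls)
      (onFibres_apply U.mem g)
    exact ⟨i, hV i _ g g' hg' ⟨IsLocalRing.closedPoint K, hsx _⟩⟩
  refine (IsZariskiLocalAtSource.iff_of_iSup_eq_top V htop).mpr fun i => ?_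
  rw [he i]
  have := hs i
  infer_instance

theorem isSeparated_toBase {D : DiagDivisor c} {M : CurveModel c ε} (hF : M.FieldTheory D)
    (U : UnivPic c ε M.deg0) : IsSeparated U.D.toBase := by
  let f := U.D.toBase
  let ψ₁ : SchemeHomOver (pullback.fst f f ≫ f) f := ⟨pullback.fst f f, rfl⟩
  let ψ₂ : SchemeHomOver (pullback.fst f f ≫ f) f := ⟨pullback.snd f f, pullback.condition.symm⟩
  obtain ⟨δ, hδ, -⟩ := U.univ _ (bcPic c ψ₁ U.cls / bcPic c ψ₂ U.cls)
    (by rw [map_div, rigHom_bcPic_eq_one ψ₁ U.rig_cls, rigHom_bcPic_eq_one ψ₂ U.rig_cls,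
      div_one])
    (deg0_div hF (onFibres_bcPic U.mem ψ₁) (onFibres_bcPic U.mem ψ₂))
  let z : SchemeHomOver (𝟙 (Spec (CommRingCat.of k))) f := ⟨U.D.zeroSection, U.D.zeroSection_toBase⟩
  have key : ∀ {T : Scheme.{u}} (t : T ⟶ Spec (CommRingCat.of k))
      (g : SchemeHomOver t (pullback.fst f f ≫ f)),
      g.1 ≫ δ.1 = t ≫ z.1 ↔ g.1 ≫ pullback.fst f f = g.1 ≫ pullback.snd f f := by
    intro T t g
    have hz : bcPic c (⟨t ≫ z.1, by rw [Category.assoc, z.2, Category.comp_id]⟩ :
        SchemeHomOver t f) U.cls = 1 := by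
      have := bcPic_bcPic z (⟨t, Category.comp_id t⟩ : SchemeHomOver t _) U.cls
      rw [U.zero, map_one] at this
      exact this.symm
    constructor <;> intro h
    · have h' : postComp δ g = ⟨t ≫ z.1, by rw [Category.assoc, z.2, Category.comp_id]⟩ :=
        Subtype.ext h
      rw [← h', ← bcPic_bcPic, hδ, map_div, div_eq_one, bcPic_bcPic, bcPic_bcPic] at hz
      exact congrArg Subtype.val (univPic_ext U hz)
    · have h' : postComp ψ₁ g = postComp ψ₂ g := Subtype.ext h
      refine congrArg Subtype.val (univPic_ext U (g := postComp δ g)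
        (g' := ⟨t ≫ z.1, by rw [Category.assoc, z.2, Category.comp_id]⟩) ?_)
      rw [hz, ← bcPic_bcPic, hδ, map_div, bcPic_bcPic, bcPic_bcPic, h', div_self']
  have sq : pullback.diagonal f ≫ δ.1 = f ≫ z.1 :=
    (key f ⟨pullback.diagonal f, by simp⟩).mpr (by simp)
  have H : IsPullback (pullback.diagonal f) f δ.1 z.1 := by
    refine ⟨⟨sq⟩, ⟨PullbackCone.IsLimit.mk sq (fun s => s.fst ≫ pullback.fst f f) ?_ ?_ ?_⟩⟩
    · intro s
      have hw : s.fst ≫ pullback.fst f f ≫ f = s.snd := by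
        have := congrArg (· ≫ f) s.condition
        simp only [Category.assoc] at this
        rw [δ.2, z.2] at this
        exact this.trans (Category.comp_id _)
      have h := (key s.snd ⟨s.fst, hw⟩).mp s.condition
      apply pullback.hom_ext
      · simp
      · simpa using h
    · intro s
      have := congrArg (· ≫ f) s.condition
      simp only [Category.assoc] at this
      rw [δ.2, z.2] at this
      rw [Category.assoc]
      exact this.trans (Category.comp_id _)
    · intro s m hm _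
      simp [← hm]
  have : Subsingleton ↥(Spec (CommRingCat.of k)) := inferInstanceAs (Subsingleton (PrimeSpectrum k))
  have hz : IsClosedImmersion z.1 := isClosedImmersion_of_comp_eq_id f z.1 z.2
  exact (isSeparated_iff f).mpr (MorphismProperty.of_isPullback H.flip hz)

end Fermat.Agent.Jacobian.Props
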