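/-
Powers of the curve with the class of the tautological list of points.
-/
import Fermat.Agent.Jacobian.Props.Pic

set_option autoImplicit false

universe u

open CategoryTheory CategoryTheory.Limits AlgebraicGeometry AlgebraicGeometry.RelPicard
  TopologicalSpace Opposite NeronModelInfra GoodReductionJacobian

noncomputable section

namespace Fermat.Agent.Jacobian.Props

/-- Geometrically integral morphisms compose over a field. -/
theorem geometricallyIntegral_comp {k : Type u} [Field k] {X Y : Scheme.{u}} (f : X ⟶ Y)
    (g : Y ⟶ Spec (CommRingCat.of k)) [GeometricallyIntegral f] [Flat f] [UniversallyOpen f]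
    [GeometricallyIntegral g] [LocallyOfFiniteType g] : GeometricallyIntegral (f ≫ g) := by
  have : ObjectProperty.IsClosedUnderIsomorphisms (@IsIntegral : Scheme.{u} → Prop) :=
    ⟨fun e h => by have := h; exact IsIntegral.of_isIso e.hom⟩
  refine ⟨geometrically_iff_of_isClosedUnderIsomorphisms.mpr fun K _ x => ?_⟩
  have : IsLocallyNoetherian (pullback g x) :=
    LocallyOfFiniteType.isLocallyNoetherian (pullback.snd g x)
  have : IsIntegral (pullback g x) :=
    GeometricallyIntegral.geometrically_isIntegral (f := g) _ _ _ (.of_hasPullback _ _)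
  have : IsIntegral (pullback f (pullback.fst g x)) := inferInstance
  exact IsIntegral.of_isIso (pullbackRightPullbackFstIso g x f).hom

variable {k : Type u} [Field k] {C : Scheme.{u}} (c : C ⟶ Spec (CommRingCat.of k))

/-- The power of the curve, as a scheme over the base. -/
def powOver : ℕ → Σ W : Scheme.{u}, W ⟶ Spec (CommRingCat.of k)
  | 0 => ⟨Spec (CommRingCat.of k), 𝟙 _⟩
  | n + 1 => ⟨pullback c (powOver n).2, pullback.snd c (powOver n).2 ≫ (powOver n).2⟩

/-- The structure map of the power. -/
abbrev powHom (n : ℕ) : (powOver c n).1 ⟶ Spec (CommRingCat.of k) := (powOver c n).2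

/-- The first point of the tautological list. -/
def powHead (n : ℕ) : SchemeHomOver (powHom c (n + 1)) c :=
  ⟨pullback.fst c (powHom c n), pullback.condition⟩

/-- Forgetting the first point. -/
def powTail (n : ℕ) : SchemeHomOver (powHom c (n + 1)) (powHom c n) :=
  ⟨pullback.snd c (powHom c n), rfl⟩

variable {c}

/-- The class of the tautological list. -/
def powCls (D : DiagDivisor c) : ∀ n : ℕ, LinePic (pullback c (powHom c n))
  | 0 => 1
  | n + 1 => D.pointClass (powHead c n) * bcPic c (powTail c n) (powCls D n)

theorem exists_powPoint (D : DiagDivisor c) {T : Scheme.{u}} {t : T ⟶ Spec (CommRingCat.of k)}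
    (P : List (SchemeHomOver t c)) :
    ∃ g : SchemeHomOver t (powHom c P.length),
      bcPic c g (powCls D P.length) = D.listClass P := by
  induction P with
  | nil => exact ⟨⟨t, Category.comp_id t⟩, by simp [powCls, DiagDivisor.listClass]⟩
  | cons σ P ih =>
    obtain ⟨g, hg⟩ := ih
    show ∃ g : SchemeHomOver t (powHom c (P.length + 1)),
      bcPic c g (powCls D (P.length + 1)) = D.listClass (σ :: P)
    refine ⟨⟨pullback.lift σ.1 g.1 (σ.2.trans g.2.symm), ?_⟩, ?_⟩
    · show pullback.lift σ.1 g.1 _ ≫ pullback.snd c _ ≫ powHom c _ = t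
      rw [pullback.lift_snd_assoc]
      exact g.2
    · rw [powCls, map_mul, bcPic_pointClass, bcPic_bcPic, listClass_cons, ← hg]
      congr 3
      · exact Subtype.ext (pullback.lift_fst _ _ _)
      · exact Subtype.ext (pullback.lift_snd _ _ _)

theorem exists_powPoint' (D : DiagDivisor c) {T : Scheme.{u}}
    {t : T ⟶ Spec (CommRingCat.of k)} (P : List (SchemeHomOver t c)) {n : ℕ} (hn : P.length = n) :
    ∃ g : SchemeHomOver t (powHom c n), bcPic c g (powCls D n) = D.listClass P := by
  subst hn
  exact exists_powPoint D P

theorem exists_list (D : DiagDivisor c) (n : ℕ) {T : Scheme.{u}}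
    {t : T ⟶ Spec (CommRingCat.of k)} (g : SchemeHomOver t (powHom c n)) :
    ∃ P : List (SchemeHomOver t c), P.length = n ∧ bcPic c g (powCls D n) = D.listClass P := by
  induction n with
  | zero => exact ⟨[], rfl, by simp [powCls, DiagDivisor.listClass]⟩
  | succ n ih =>
    obtain ⟨P, hP, hP'⟩ := ih (postComp (powTail c n) g)
    refine ⟨postComp (powHead c n) g :: P, by simp [hP], ?_⟩
    rw [powCls, map_mul, bcPic_pointClass, bcPic_bcPic, hP', listClass_cons]

variable (c) [IsProper c] [SmoothOfRelativeDimension 1 c]

omit [SmoothOfRelativeDimension 1 c] in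
theorem isProper_powHom (n : ℕ) : IsProper (powHom c n) := by
  induction n with
  | zero => exact inferInstanceAs (IsProper (𝟙 (Spec (CommRingCat.of k))))
  | succ n ih => exact inferInstanceAs (IsProper (pullback.snd c (powHom c n) ≫ powHom c n))

theorem geometricallyIntegral_powHom [GeometricallyIntegral c] (n : ℕ) :
    GeometricallyIntegral (powHom c n) := by
  have : Smooth c := SmoothOfRelativeDimension.smooth 1 c
  induction n with
  | zero => exact geometricallyIntegral_id_Spec k
  | succ n ih =>
    have := isProper_powHom c n
    exact geometricallyIntegral_comp (pullback.snd c (powHom c n)) (powHom c n)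

end Fermat.Agent.Jacobian.Props
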