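/-
Algebraic equivalence to zero on the fibres is the degree zero condition.
-/
import Fermat.Agent.Jacobian.Props.Power

set_option autoImplicit false

universe u

open CategoryTheory CategoryTheory.Limits AlgebraicGeometry AlgebraicGeometry.RelPicard
  TopologicalSpace Opposite NeronModelInfra GoodReductionJacobian

noncomputable section

namespace Fermat.Agent.Jacobian.Props

variable {k : Type u} [Field k] {C : Scheme.{u}} {c : C ⟶ Spec (CommRingCat.of k)}
  {ε : SchemeHomOver (𝟙 (Spec (CommRingCat.of k))) c}

theorem linePic_pullback_injective {X Y : Scheme.{u}} (f : X ⟶ Y) [IsIso f] :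
    Function.Injective (LinePic.pullback f) := by
  intro a b h
  have := congrArg (LinePic.pullback (inv f)) h
  simpa only [LinePic.pullback_pullback, IsIso.inv_hom_id, LinePic.pullback_id,
    MonoidHom.id_apply] using this

theorem linePic_pullback_surjective {X Y : Scheme.{u}} (f : X ⟶ Y) [IsIso f]
    (a : LinePic X) : ∃ b, LinePic.pullback f b = a :=
  ⟨LinePic.pullback (inv f) a, by
    rw [LinePic.pullback_pullback, IsIso.hom_inv_id, LinePic.pullback_id, MonoidHom.id_apply]⟩

variable {K : Type u} [Field K] {v : Spec (CommRingCat.of K) ⟶ Spec (CommRingCat.of k)}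

/-- A point of a `K`-scheme, seen over `k`. -/
def overBase {T' : Scheme.{u}} {h : T' ⟶ Spec (CommRingCat.of K)}
    (ψ : SchemeHomOver (𝟙 (Spec (CommRingCat.of K))) h) : SchemeHomOver v (h ≫ v) :=
  ⟨ψ.1, by rw [← Category.assoc, ψ.2, Category.id_comp]⟩

/-- Algebraic equivalence to zero, on classes of line systems. -/
def AlgZero (v : Spec (CommRingCat.of K) ⟶ Spec (CommRingCat.of k))
    (a : LinePic (pullback c v)) : Prop :=
  ∃ (T' : Scheme.{u}) (h : T' ⟶ Spec (CommRingCat.of K)),
    LocallyOfFiniteType h ∧ GeometricallyIntegral h ∧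
      ∃ (m : LinePic (pullback c (h ≫ v))) (t₀ t₁ : SchemeHomOver (𝟙 (Spec (CommRingCat.of K))) h),
        bcPic c (overBase t₀) m = 1 ∧ bcPic c (overBase t₁) m = a

theorem algZero_iff_deg0 [IsProper c] [SmoothOfRelativeDimension 1 c] {D : DiagDivisor c}
    {M : CurveModel c ε} (hC : CurveBasicsProperty c) (hone : M.UnitClassProperty)
    (hchi : M.ChiLocConstProperty) (hF : M.FieldTheory D) [IsAlgClosed K]
    (a : LinePic (pullback c v)) : AlgZero v a ↔ M.chiAt v a = M.chiOne := by
  constructor
  · rintro ⟨T', h, _, _, m, t₀, t₁, h0, h1⟩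
    have : Subsingleton ↥(Spec (CommRingCat.of K)) :=
      inferInstanceAs (Subsingleton (PrimeSpectrum K))
    have : IsIntegral T' := GeometricallyIntegral.isIntegral_of_subsingleton h
    obtain ⟨f, hf, hf'⟩ := hchi (h ≫ v) m
    have key : ∀ (u' : Spec (CommRingCat.of K) ⟶ Spec (CommRingCat.of k))
        (ψ : SchemeHomOver u' (h ≫ v)),
        M.chiAt u' (bcPic c ψ m) = f (ψ.1 (IsLocalRing.closedPoint K : Spec (CommRingCat.of K))) := by
      rintro u' ⟨g, rfl⟩
      exact hf' K g
    rw [← h1, key, hf.apply_eq_of_preconnectedSpace _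
        ((overBase (v := v) t₀).1 (IsLocalRing.closedPoint K : Spec (CommRingCat.of K))),
      ← key, h0]
    exact (hone.2 K v).1
  · intro ha
    obtain ⟨P, Q, rfl⟩ := hF.exists_points K v a
    rw [chiAt_div hF, chiAt_listClass hone hF, chiAt_listClass hone hF] at ha
    have hlen : P.length = Q.length := by omega
    obtain ⟨qP, hqP⟩ := exists_powPoint' D P hlen
    obtain ⟨qQ, hqQ⟩ := exists_powPoint D Q
    let h := pullback.snd (powHom c Q.length) v
    let π : SchemeHomOver (h ≫ v) (powHom c Q.length) := ⟨pullback.fst _ _, pullback.condition⟩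
    let η : SchemeHomOver (h ≫ v) v := ⟨h, rfl⟩
    have := isProper_powHom c Q.length
    have := hC.1
    have := geometricallyIntegral_powHom c Q.length
    let pt (q : SchemeHomOver v (powHom c Q.length)) :
        SchemeHomOver (𝟙 (Spec (CommRingCat.of K))) h :=
      ⟨pullback.lift q.1 (𝟙 _) (q.2.trans (Category.id_comp v).symm), pullback.lift_snd _ _ _⟩
    have hpt : ∀ q, bcPic c (overBase (pt q)) (bcPic c π (powCls D Q.length) /
        bcPic c η (D.listClass Q)) = bcPic c q (powCls D Q.length) / D.listClass Q := by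
      intro q
      rw [map_div, bcPic_bcPic, bcPic_bcPic]
      congr 1
      · exact congrArg (fun g => bcPic c g _) (Subtype.ext (pullback.lift_fst _ _ _))
      · exact bcPic_id' _ (pullback.lift_snd _ _ _) _
    refine ⟨_, h, inferInstance, inferInstance,
      bcPic c π (powCls D Q.length) / bcPic c η (D.listClass Q), pt qQ, pt qP, ?_, ?_⟩
    · rw [hpt, hqQ, div_self']
    · rw [hpt, hqP]

/-- The translation between sheaves of modules and classes. -/
theorem isAlgEquivZero_iff (B : ModulesBridge.{u}) {A : Scheme.{u}}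
    (a : A ⟶ Spec (CommRingCat.of K)) (j : A ⟶ C) (hj : IsPullback j a c v) (L : A.Modules)
    (hL : Scheme.Modules.IsInvertible L) (l : LinePic (pullback c v))
    (hl : B.cls L hL = LinePic.pullback (pullback.lift j a hj.w) l) :
    IsAlgEquivZero a L ↔ AlgZero v l := by
  let e (T' : Scheme.{u}) (h : T' ⟶ Spec (CommRingCat.of K)) : pullback a h ⟶ pullback c (h ≫ v) :=
    pullback.lift (pullback.fst a h ≫ j) (pullback.snd a h)
      (by rw [Category.assoc, hj.w, ← Category.assoc, pullback.condition, Category.assoc])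
  have he : ∀ (T' : Scheme.{u}) (h : T' ⟶ Spec (CommRingCat.of K)), IsIso (e T' h) := by
    intro T' h
    have hh := ((IsPullback.of_hasPullback a h).paste_horiz hj)
    rw [show e T' h = hh.isoPullback.hom from pullback.hom_ext
      ((pullback.lift_fst _ _ _).trans hh.isoPullback_hom_fst.symm)
      ((pullback.lift_snd _ _ _).trans hh.isoPullback_hom_snd.symm)]
    infer_instance
  let e' : pullback a (𝟙 (Spec (CommRingCat.of K))) ⟶ pullback c v :=
    pullback.fst a (𝟙 _) ≫ pullback.lift j a hj.w
  have : IsIso e' := by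
    have : IsIso (pullback.lift j a hj.w) := by
      rw [show pullback.lift j a hj.w = hj.isoPullback.hom from
        pullback.hom_ext ((pullback.lift_fst _ _ _).trans hj.isoPullback_hom_fst.symm)
          ((pullback.lift_snd _ _ _).trans hj.isoPullback_hom_snd.symm)]
      infer_instance
    infer_instance
  have nat : ∀ {T' : Scheme.{u}} {h : T' ⟶ Spec (CommRingCat.of K)}
      (ψ : SchemeHomOver (𝟙 (Spec (CommRingCat.of K))) h),
      baseChangeSnd a ψ ≫ e T' h = e' ≫ baseChangeSnd c (overBase (v := v) ψ) := by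
    intro T' h ψ
    unfold baseChangeSnd overBase
    apply pullback.hom_ext
    · simp only [e, e', Category.assoc, pullback.lift_fst, pullback.lift_fst_assoc,
        Category.comp_id]
    · simp only [e, e', Category.assoc, pullback.lift_snd, pullback.lift_snd_assoc]
      rw [← Category.assoc, pullback.condition, Category.comp_id]
  have pull : ∀ {T' : Scheme.{u}} {h : T' ⟶ Spec (CommRingCat.of K)}
      (ψ : SchemeHomOver (𝟙 (Spec (CommRingCat.of K))) h) (N : (pullback a h).Modules)
      (hN : Scheme.Modules.IsInvertible N) (m : LinePic (pullback c (h ≫ v))),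
      B.cls N hN = LinePic.pullback (e T' h) m →
        B.cls _ (hN.pullback (baseChangeSnd a ψ)) =
          LinePic.pullback e' (bcPic c (overBase ψ) m) := by
    intro T' h ψ N hN m hm
    rw [B.cls_pullback _ N hN, hm, LinePic.pullback_pullback, nat, bcPic, LinePic.pullback_pullback]
  have hL' : B.cls _ (hL.pullback (pullback.fst a (𝟙 (Spec (CommRingCat.of K))))) =
      LinePic.pullback e' l := by
    rw [B.cls_pullback _ L hL, hl, LinePic.pullback_pullback]
  constructor
  · rintro ⟨T', h, hft, hgi, N, hN, t₀, t₁, e₀, e₁⟩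
    have := he T' h
    obtain ⟨m, hm⟩ := linePic_pullback_surjective (e T' h) (B.cls N hN)
    refine ⟨T', h, hft, hgi, m, t₀, t₁, linePic_pullback_injective e' ?_,
      linePic_pullback_injective e' ?_⟩
    · rw [← pull t₀ N hN m hm.symm, map_one, ← B.cls_unit]
      exact (B.cls_eq_iff _ _ _ _).mpr e₀
    · rw [← pull t₁ N hN m hm.symm, ← hL']
      exact (B.cls_eq_iff _ _ _ _).mpr e₁
  · rintro ⟨T', h, hft, hgi, m, t₀, t₁, h0, h1⟩
    obtain ⟨N, hN, hm⟩ := B.surj (LinePic.pullback (e T' h) m)
    refine ⟨T', h, hft, hgi, N, hN, t₀, t₁,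
      (B.cls_eq_iff _ _ (hN.pullback _) (Scheme.Modules.isInvertible_unit _)).mp ?_,
      (B.cls_eq_iff _ _ (hN.pullback _) (hL.pullback _)).mp ?_⟩
    · rw [pull t₀ N hN m hm, h0, map_one, B.cls_unit]
    · rw [pull t₁ N hN m hm, h1, hL']

/-- P: the cut is the degree zero condition. -/
theorem cutProperty [IsProper c] [SmoothOfRelativeDimension 1 c] {D : DiagDivisor c}
    (M : CurveModel c ε) (B : ModulesBridge.{u}) (hC : CurveBasicsProperty c)
    (hone : M.UnitClassProperty) (hchi : M.ChiLocConstProperty) (hF : M.FieldTheory D) :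
    M.CutProperty B := by
  intro T t L
  refine forall_congr' fun K => forall_congr' fun _ => forall_congr' fun _ => forall_congr' fun s => ?_
  let j := pullback.fst (pullback.snd c t) s ≫ pullback.fst c t
  have hj : IsPullback j (fibreAt c t s) c (s ≫ t) :=
    (IsPullback.of_hasPullback (pullback.snd c t) s).paste_horiz (IsPullback.of_hasPullback c t)
  let l := bcPic c (⟨s, rfl⟩ : SchemeHomOver (s ≫ t) t) (B.cls L.L L.isInvertible)
  refine (isAlgEquivZero_iff B (fibreAt c t s) j hj _ (L.isInvertible.pullback _) l ?_).trans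
    (algZero_iff_deg0 hC hone hchi hF l)
  rw [B.cls_pullback _ L.L L.isInvertible]
  refine Eq.trans ?_ (LinePic.pullback_pullback _ _ _).symm
  congr 2
  unfold baseChangeSnd
  apply pullback.hom_ext <;>
    simp only [Category.assoc, pullback.lift_fst, pullback.lift_snd, pullback.lift_snd_assoc,
      Category.comp_id]
  · rfl
  · exact pullback.condition

end Fermat.Agent.Jacobian.Props
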