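/-
The scheme carrying the universal degree zero class is proper and geometrically connected: a
power of the curve maps onto it.
-/
import Fermat.Agent.Jacobian.Props.Local
import Fermat.Agent.Jacobian.Props.Power

set_option autoImplicit false

universe u

open CategoryTheory CategoryTheory.Limits AlgebraicGeometry AlgebraicGeometry.RelPicard
  TopologicalSpace Opposite NeronModelInfra GoodReductionJacobian

noncomputable section

namespace Fermat.Agent.Jacobian.Props

variable {k : Type u} [Field k] {C : Scheme.{u}} {c : C ⟶ Spec (CommRingCat.of k)}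
  {ε : SchemeHomOver (𝟙 (Spec (CommRingCat.of k))) c}

/-- A power of the curve maps onto the scheme carrying the universal degree zero class. -/
theorem exists_surjection {D : DiagDivisor c} {M : CurveModel c ε} (hone : M.UnitClassProperty)
    (hF : M.FieldTheory D) (U : UnivPic c ε M.deg0) :
    ∃ φ : SchemeHomOver (powHom c M.genus) U.D.toBase, Surjective φ.1 := by
  let g := M.genus
  let w : SchemeHomOver (powHom c g) (𝟙 (Spec (CommRingCat.of k))) :=
    ⟨powHom c g, Category.comp_id _⟩
  let a := rig c ε (powHom c g) (powCls D g / bcPic c w (D.pointClass ε ^ g))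
  have hfib : ∀ {K : Type u} [Field K] (v : Spec (CommRingCat.of K) ⟶ Spec (CommRingCat.of k))
      (s : SchemeHomOver v (powHom c g)),
      bcPic c s a = bcPic c s (powCls D g) / D.pointClass (constPt v ε) ^ g := by
    intro K _ v s
    rw [bcPic_rig, rig_field, map_div, bcPic_bcPic, map_pow, bcPic_pointClass, constPt_eq_postComp]
  have ha : OnFibres c M.deg0 (powHom c g) a := by
    intro K _ _ s
    show M.chiAt _ _ = M.chiOne
    obtain ⟨P, hP, hP'⟩ := exists_list D g (⟨s, rfl⟩ : SchemeHomOver (s ≫ powHom c g) _)
    rw [hfib, hP', ← listClass_replicate, chiAt_div hF, chiAt_listClass hone hF,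
      chiAt_listClass hone hF, List.length_replicate, hP]
    ring
  obtain ⟨φ, hφ, -⟩ := U.univ _ a (rigHom_rig _) ha
  refine ⟨φ, ⟨fun x => ?_⟩⟩
  obtain ⟨K, _, _, s, hsx⟩ := exists_geomPoint U.D.P x
  let sU : SchemeHomOver (s ≫ U.D.toBase) U.D.toBase := ⟨s, rfl⟩
  let v := s ≫ U.D.toBase
  let b := bcPic c sU U.cls
  have hb : M.chiAt v b = M.chiOne := onFibres_apply U.mem sU
  let b' := b * D.pointClass (constPt v ε) ^ g
  have hb' : M.chiAt v b' = M.chiOne + g := by
    rw [hF.chi_mul, hb, ← listClass_replicate, chiAt_listClass hone hF, List.length_replicate]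
    ring
  have hpos : 0 < h0 (pullback.snd c v) b' := by
    have h1 : M.chiAt v b' = (h0 (pullback.snd c v) b' : ℤ) -
      h1 (pullback.snd c v) (M.V0 v) (M.V1 v) b' := rfl
    rw [hb', hone.1] at h1
    omega
  obtain ⟨P, hP, hP'⟩ := hF.effective K v b' hpos
  have hPg : P.length = g := by
    rw [hb'] at hP'
    omega
  obtain ⟨q', hq'⟩ := exists_powPoint' D P hPg
  rw [← hP] at hq'
  have : postComp φ q' = sU := univPic_ext U (by
    rw [← bcPic_bcPic, hφ, hfib, hq', mul_div_cancel_right])
  refine ⟨q'.1 (IsLocalRing.closedPoint K), ?_⟩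
  rw [← Scheme.Hom.comp_apply, show q'.1 ≫ φ.1 = s from congrArg Subtype.val this]
  exact hsx _

variable [IsProper c] [SmoothOfRelativeDimension 1 c]

/-- P: smoothness, properness and geometric connectedness of the scheme carrying the universal
degree zero class. -/
theorem jacobianPropsProperty {D : DiagDivisor c} (M : CurveModel c ε) (hC : CurveBasicsProperty c)
    (hch : M.ChartsProperty) (hone : M.UnitClassProperty) (hF : M.FieldTheory D) :
    M.JacobianPropsProperty := by
  intro U
  obtain ⟨ι, ch, hs, hcov⟩ := hch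
  have hsm := smooth_toBase U ch hs hcov
  have hsep := isSeparated_toBase hF U
  obtain ⟨φ, hφ⟩ := exists_surjection hone hF U
  have := hC.1
  have hp := isProper_powHom c M.genus
  have hgi := geometricallyIntegral_powHom c M.genus
  have hpc : UniversallyClosed (φ.1 ≫ U.D.toBase) := by rw [φ.2]; infer_instance
  have huc : UniversallyClosed U.D.toBase := UniversallyClosed.of_comp_surjective φ.1 U.D.toBase
  refine ⟨hsm, (isProper_iff _).mpr ⟨hsep, huc, inferInstance⟩, ⟨?_⟩⟩
  intro K _ y Y fst snd hY
  have : IsIntegral (pullback (φ.1 ≫ U.D.toBase) y) := by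
    have : GeometricallyIntegral (φ.1 ≫ U.D.toBase) := by rw [φ.2]; exact hgi
    exact GeometricallyIntegral.geometrically_isIntegral (f := φ.1 ≫ U.D.toBase) _ _ _
      (.of_hasPullback _ _)
  have : IsIntegral (pullback φ.1 fst) :=
    IsIntegral.of_isIso
      ((IsPullback.of_hasPullback (φ.1 ≫ U.D.toBase) y).isoIsPullback _ _
        ((IsPullback.of_hasPullback φ.1 fst).paste_vert hY)).hom
  exact (pullback.snd φ.1 fst).surjective.connectedSpace (pullback.snd φ.1 fst).continuous

end Fermat.Agent.Jacobian.Props
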